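/-
S55 (Poitou–Tate), layer G, leaf G-SIND-X (helper937): elements of a number field with
prescribed orders at finitely many primes.  `existsOrd : SIndH601.ExistsOrdSpec`.
Mathlib only (Chinese remainder theorem in the Dedekind domain `𝓞 L`).
-/
import Fermat.Agent.S55.G.SIndH601.Spec

set_option autoImplicit false

open scoped NumberField
open IsDedekindDomain

noncomputable section

namespace Fermat.Agent.S55.G.SIndH937

open Fermat.Agent.S55.G

section Dedekind

variable {R : Type*} [CommRing R] [IsDedekindDomain R]

/-- In a Dedekind domain there is an element with prescribed (non-negative) valuations at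
finitely many primes. -/
theorem exists_intValuation_eq (W : Finset (HeightOneSpectrum R)) (n : HeightOneSpectrum R → ℕ) :
    ∃ a : R, a ≠ 0 ∧ ∀ w ∈ W, w.intValuation a = WithZero.exp (-(n w : ℤ)) := by
  classical
  -- uniformisers
  choose π hπ using fun w : HeightOneSpectrum R => w.intValuation_exists_uniformizer
  -- CRT
  obtain ⟨y, hy⟩ := IsDedekindDomain.exists_forall_sub_mem_ideal
    (s := W) (fun w => w.asIdeal) (fun w => n w + 1) (fun w _ => w.prime)
    (fun w _ w' _ hww' h => hww' (HeightOneSpectrum.ext h)) (fun w => π w ^ n w)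
  have key : ∀ w ∈ W, w.intValuation y = WithZero.exp (-(n w : ℤ)) := by
    intro w hw
    have h1 : w.intValuation (y - π w ^ n w) ≤ WithZero.exp (-((n w + 1 : ℕ) : ℤ)) :=
      (w.intValuation_le_pow_iff_mem _ _).2 (hy w hw)
    have h2 : w.intValuation (π w ^ n w) = WithZero.exp (-(n w : ℤ)) := by
      rw [map_pow, hπ w, ← WithZero.exp_nsmul]
      congr 1
      simp
    have h3 : w.intValuation (y - π w ^ n w) < w.intValuation (π w ^ n w) := by
      rw [h2]
      refine lt_of_le_of_lt h1 ?_
      rw [WithZero.exp_lt_exp]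
      push_cast
      omega
    have h4 : y = (y - π w ^ n w) + π w ^ n w := by ring
    rw [h4, Valuation.map_add_eq_of_lt_right _ h3, h2]
  by_cases hW : W.Nonempty
  · obtain ⟨w₀, hw₀⟩ := hW
    refine ⟨y, ?_, key⟩
    rintro rfl
    have := key w₀ hw₀
    rw [map_zero] at this
    exact WithZero.exp_ne_zero this.symm
  · rw [Finset.not_nonempty_iff_eq_empty] at hW
    subst hW
    exact ⟨1, one_ne_zero, fun w hw => absurd hw (Finset.notMem_empty w)⟩

end Dedekind

/-- **G-SIND-X**: elements with prescribed orders at finitely many primes. -/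
theorem existsOrd : SIndH601.ExistsOrdSpec := by
  intro L _ _ W n
  classical
  obtain ⟨a, ha0, ha⟩ := exists_intValuation_eq W (fun w => (n w).toNat)
  obtain ⟨b, hb0, hb⟩ := exists_intValuation_eq W (fun w => (-(n w)).toNat)
  have ha' : (algebraMap (𝓞 L) L a) ≠ 0 := by
    simpa using ha0
  have hb' : (algebraMap (𝓞 L) L b) ≠ 0 := by
    simpa using hb0
  refine ⟨Additive.ofMul (Units.mk0 _ ha' / Units.mk0 _ hb'), fun w hw => ?_⟩
  rw [ordAt_apply]
  simp only [toMul_ofMul, Units.val_div_eq_div_val, Units.val_mk0, map_div₀,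
    HeightOneSpectrum.valuation_of_algebraMap]
  rw [ha w hw, hb w hw, ← WithZero.exp_sub, WithZero.log_exp]
  have h1 := Int.toNat_sub_toNat_neg (n w)
  omega

end Fermat.Agent.S55.G.SIndH937
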